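import Fermat.Agent.S13.TwoAdic.XCoreH.Basic
import Fermat.Agent.S05.Core.Dbl

/-!
# XCoreH (Alt, second prover): field-level doubling rule without `v 2 = 1`
(same FROZEN statement as `XCoreH/Dbl.lean`; helper lemmas in the sub-namespace `Dbl`.)

`x(2P) = (x² - a₄)² / D`, `D = 4x³ + b₂x² + 4a₄x = x (4x² + b₂x + 4a₄)`, with `v b₂ = 1`,
`0 < ε := v a₄ < 1`, `v 4 ≤ 1` (`val_four_le_one`), `D ≠ 0`.
Claim: `clip ε (v x(2P)) = fold ε (s * s)`, `s = clip ε (v x)`.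
Template: `Fermat/Agent/S05/Core/Dbl.lean` (`dbl_field`; its pure `Γ₀`-lemmas are used as they are).

Multiplicatively, with `ξ = v x`, `ν = v (x² - a₄)`, `δ = v D`:
the three terms of `D` have valuations `≤ ξ³`, `= ξ²`, `≤ ε ξ`.
* `1 ≤ ξ`: `ν = ξ²`, `δ ≤ ξ⁴ = ν²`, so `1 ≤ ν² / δ`: clip `1` = fold `(1 * 1)`.
* `ξ ≤ ε`: `ν = ε`, `δ ≤ ε² = ν²`, so `1 ≤ ν² / δ`: clip `1` = fold `(ε * ε)`.
* `ε < ξ < 1`: the term `b₂x²` dominates strictly, `δ = ξ²`, and the three sub-cases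
  `ξ² < ε`, `ξ² = ε`, `ε < ξ²` are exactly `case3b`, `case3c`, `case3a` of the S05 template.
-/

set_option autoImplicit false

namespace Fermat.Agent.S13.TwoAdic.XCoreH.Alt

open Fermat.Agent.S05 (fold qt clip URConcl)

variable {K : Type*} [Field K] {Γ₀ : Type*} [LinearOrderedCommGroupWithZero Γ₀]
variable {v : Valuation K Γ₀} {b₂ a₄ x₁ x₂ r₁ r₂ : K}

namespace Dbl

/-- If `0 < d ≤ n ^ 2` then the clip of `n ^ 2 / d` is `1`. -/
theorem clip_div_eq_one {ε n d : Γ₀} (hε : ε ≤ 1) (hd0 : 0 < d) (hd : d ≤ n ^ 2) :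
    clip ε (n ^ 2 / d) = 1 := by
  apply Fermat.Agent.S05.Dbl.clip_of_one_le hε
  rw [le_div_iff₀ hd0, one_mul]
  exact hd

/-- The three bounds for the terms of the denominator when `1 ≤ x`. -/
theorem ge_one_bounds {ε x : Γ₀} (hε : ε ≤ 1) (hx : 1 ≤ x) :
    x ^ 3 ≤ (x ^ 2) ^ 2 ∧ x ^ 2 ≤ (x ^ 2) ^ 2 ∧ ε * x ≤ (x ^ 2) ^ 2 := by
  have h4 : (x ^ 2) ^ 2 = x ^ 4 := by rw [← pow_mul]
  rw [h4]
  have h1 : x ≤ x ^ 4 := by
    calc x = x ^ 1 := (pow_one x).symm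
      _ ≤ x ^ 4 := pow_le_pow_right' hx (by norm_num)
  refine ⟨pow_le_pow_right' hx (by norm_num), pow_le_pow_right' hx (by norm_num), ?_⟩
  calc ε * x ≤ 1 * x := mul_le_mul' hε le_rfl
    _ = x := one_mul x
    _ ≤ x ^ 4 := h1

/-- The three bounds for the terms of the denominator when `x ≤ ε`. -/
theorem le_eps_bounds {ε x : Γ₀} (hε : ε ≤ 1) (hx : x ≤ ε) :
    x ^ 3 ≤ ε ^ 2 ∧ x ^ 2 ≤ ε ^ 2 ∧ ε * x ≤ ε ^ 2 := by
  have hx1 : x ≤ 1 := hx.trans hε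
  have h2 : x ^ 2 ≤ ε ^ 2 := pow_le_pow_left' hx 2
  refine ⟨?_, h2, ?_⟩
  · calc x ^ 3 = x ^ 2 * x := pow_succ x 2
      _ ≤ x ^ 2 * 1 := mul_le_mul' le_rfl hx1
      _ = x ^ 2 := mul_one _
      _ ≤ ε ^ 2 := h2
  · rw [pow_two]
    exact mul_le_mul' le_rfl hx

/-- `1 ≤ x ^ 2` when `1 ≤ x`. -/
theorem one_le_sq {x : Γ₀} (hx : 1 ≤ x) : 1 ≤ x ^ 2 := by
  calc (1 : Γ₀) = 1 * 1 := (one_mul 1).symm
    _ ≤ x * x := mul_le_mul' hx hx
    _ = x ^ 2 := (pow_two x).symm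

end Dbl

theorem dbl_field2 (v : Valuation K Γ₀) {b₂ a₄ x : K} (hb₂ : v b₂ = 1) (ha₄0 : a₄ ≠ 0)
    (ha₄ : v a₄ < 1) (hden : 4 * x ^ 3 + b₂ * x ^ 2 + 4 * a₄ * x ≠ 0) :
    clip (v a₄) (v ((x ^ 2 - a₄) ^ 2 / (4 * x ^ 3 + b₂ * x ^ 2 + 4 * a₄ * x))) =
      fold (v a₄) (clip (v a₄) (v x) * clip (v a₄) (v x)) := by
  have hε0 : 0 < v a₄ := v.pos_iff.mpr ha₄0
  have hd0 : 0 < v (4 * x ^ 3 + b₂ * x ^ 2 + 4 * a₄ * x) := v.pos_iff.mpr hden
  have hX2 : v (x ^ 2) = v x ^ 2 := map_pow v x 2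
  have hA : v (4 * x ^ 3) ≤ v x ^ 3 := by
    rw [map_mul, map_pow]
    exact mul_le_of_le_one_left' (val_four_le_one v)
  have hB : v (b₂ * x ^ 2) = v x ^ 2 := by rw [map_mul, hb₂, one_mul, map_pow]
  have hC : v (4 * a₄ * x) ≤ v a₄ * v x := by
    rw [map_mul, map_mul]
    exact mul_le_mul' (mul_le_of_le_one_left' (val_four_le_one v)) le_rfl
  have hDle : ∀ c : Γ₀, v x ^ 3 ≤ c → v x ^ 2 ≤ c → v a₄ * v x ≤ c →
      v (4 * x ^ 3 + b₂ * x ^ 2 + 4 * a₄ * x) ≤ c := by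
    intro c h1 h2 h3
    exact Valuation.map_add_le v (Valuation.map_add_le v (hA.trans h1) (hB.le.trans h2))
      (hC.trans h3)
  rw [map_div₀, map_pow]
  rcases le_or_gt 1 (v x) with hx1 | hx1
  · -- `1 ≤ v x`
    have hn : v (x ^ 2 - a₄) = v x ^ 2 := by
      have h : v a₄ < v (x ^ 2) := by
        rw [hX2]
        exact lt_of_lt_of_le ha₄ (Dbl.one_le_sq hx1)
      rw [Valuation.map_sub_eq_of_lt_left v h, hX2]
    obtain ⟨h1, h2, h3⟩ := Dbl.ge_one_bounds (ε := v a₄) ha₄.le hx1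
    rw [hn, Dbl.clip_div_eq_one ha₄.le hd0 (hDle _ h1 h2 h3),
      Fermat.Agent.S05.Dbl.clip_of_one_le ha₄.le hx1, mul_one,
      Fermat.Agent.S05.Dbl.fold_of_le ha₄.le]
  · rcases le_or_gt (v x) (v a₄) with hxε | hxε
    · -- `v x ≤ v a₄`
      have hn : v (x ^ 2 - a₄) = v a₄ := by
        have h : v (x ^ 2) < v a₄ := by
          rw [hX2]
          calc v x ^ 2 ≤ v a₄ ^ 2 := pow_le_pow_left' hxε 2
            _ = v a₄ * v a₄ := pow_two _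
            _ < v a₄ := Fermat.Agent.S05.Dbl.mul_self_lt hε0 ha₄
        exact Valuation.map_sub_eq_of_lt_right v h
      obtain ⟨h1, h2, h3⟩ := Dbl.le_eps_bounds ha₄.le hxε
      rw [hn, Dbl.clip_div_eq_one ha₄.le hd0 (hDle _ h1 h2 h3),
        Fermat.Agent.S05.Dbl.clip_of_le ha₄.le hxε,
        Fermat.Agent.S05.Dbl.fold_mul_self hε0 ha₄]
    · -- `v a₄ < v x < 1`
      have hx0 : 0 < v x := lt_of_le_of_lt zero_le hxε
      have hD : v (4 * x ^ 3 + b₂ * x ^ 2 + 4 * a₄ * x) = v x * v x * 1 := by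
        have hA' : v (4 * x ^ 3) < v (b₂ * x ^ 2) := by
          rw [hB]
          refine lt_of_le_of_lt hA ?_
          calc v x ^ 3 = v x ^ 2 * v x := pow_succ _ 2
            _ < v x ^ 2 * 1 := mul_lt_mul_of_pos_left hx1 (pow_pos hx0 2)
            _ = v x ^ 2 := mul_one _
        have hAB : v (4 * x ^ 3 + b₂ * x ^ 2) = v x ^ 2 := by
          rw [Valuation.map_add_eq_of_lt_right v hA', hB]
        have hC' : v (4 * a₄ * x) < v (4 * x ^ 3 + b₂ * x ^ 2) := by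
          rw [hAB]
          refine lt_of_le_of_lt hC ?_
          rw [pow_two]
          exact mul_lt_mul_of_pos_right hxε hx0
        rw [Valuation.map_add_eq_of_lt_left v hC', hAB, pow_two, mul_one]
      rw [hD]
      rcases lt_trichotomy (v x ^ 2) (v a₄) with h | h | h
      · have hn : v (x ^ 2 - a₄) = v a₄ :=
          Valuation.map_sub_eq_of_lt_right v (by rw [hX2]; exact h)
        rw [hn]
        exact Fermat.Agent.S05.Dbl.case3b hxε hx1 h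
      · have hn : v (x ^ 2 - a₄) ≤ v a₄ :=
          Valuation.map_sub_le v (by rw [hX2, h]) le_rfl
        exact Fermat.Agent.S05.Dbl.case3c hxε hx1 h hn
      · have hn : v (x ^ 2 - a₄) = v x ^ 2 := by
          rw [Valuation.map_sub_eq_of_lt_left v (by rw [hX2]; exact h), hX2]
        rw [hn]
        exact Fermat.Agent.S05.Dbl.case3a hxε hx1 h

end Fermat.Agent.S13.TwoAdic.XCoreH.Alt
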